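/-
Lib/EtaUnit (architect helper213).  TASK EU-7 (proof by helper199).
-/
import Fermat.Agent.S24.B.TExpBasic
import Fermat.Agent.Lib.JExpansion
import Fermat.Agent.GAL.M.DiscFun

set_option autoImplicit false

namespace Fermat.Agent.S24

open UpperHalfPlane ModularCurve
open scoped MatrixGroups Real Manifold

/-- The inverse of a nowhere vanishing function.
PROOF.  `s ≠ 0` (else `f = 0`); write `f τ = t ^ m * U t` with `U` the sum on the unit disc of a power
series `u` with nonzero constant coefficient (`GAL.M.exists_disc_fun`).  `U` is holomorphic there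
(`Fermat.Agent.Lib.JExpansion.hasFPowerSeriesOnBall_of_ev`) and has no zero, so `1 / U` is holomorphic
on the disc, equal to the sum of its Taylor series (`ev_taylorPS`), and the Taylor series is the image
of the formal inverse of `u` (`Ev.mul`, `eq_of_forall_ev`). -/
theorem HasTExp.inv {N : ℕ} [NeZero N] {f : ℍ → ℂ} {s : LaurentSeries Kbar} (h : HasTExp N f s)
    (hf : ∀ τ, f τ ≠ 0) : HasTExp N (fun τ => (f τ)⁻¹) s⁻¹ := by
  open Fermat.Agent.Lib.JExpansion in
  have hN : (0 : ℝ) < (N : ℝ) := by exact_mod_cast Nat.pos_of_ne_zero (NeZero.ne N)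
  have hs : s ≠ 0 := by
    rintro rfl
    exact hf UpperHalfPlane.I (congrFun h.eq_zero _)
  obtain ⟨u, U, hu0, hEv, hfU⟩ := Fermat.Agent.GAL.M.exists_disc_fun h hs
  -- `U` has no zero on the unit disc
  have hU0 : ∀ q : ℂ, ‖q‖ < 1 → U q ≠ 0 := by
    intro q hq
    rcases eq_or_ne q 0 with rfl | hq0
    · have h1 := hEv 0 hq
      unfold Ev at h1
      have h2 : HasSum (fun n : ℕ => PowerSeries.coeff n (PowerSeries.map iota u) * (0 : ℂ) ^ n)
          (PowerSeries.coeff 0 (PowerSeries.map iota u) * (0 : ℂ) ^ 0) :=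
        hasSum_single 0 (fun n hn => by simp [hn])
      rw [h1.unique h2, pow_zero, mul_one, PowerSeries.coeff_map,
        PowerSeries.coeff_zero_eq_constantCoeff_apply]
      exact (map_ne_zero iota).mpr hu0
    · obtain ⟨τ, rfl⟩ := exists_qParam_eq hN hq hq0
      intro h0
      apply hf τ
      rw [hfU τ, h0, mul_zero]
  have hUd : DifferentiableOn ℂ U (Metric.ball 0 1) := by
    have := (hasFPowerSeriesOnBall_of_ev hEv).differentiableOn
    rwa [← ENNReal.coe_one, Metric.eball_coe, NNReal.coe_one] at this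
  have hRd : DifferentiableOn ℂ (fun q => (U q)⁻¹) (Metric.ball 0 1) :=
    hUd.inv fun x hx => hU0 x (by simpa using hx)
  -- the Taylor series of `1 / U`
  have h1 : PowerSeries.map iota u * taylorPS (fun q => (U q)⁻¹) = 1 := by
    refine eq_of_forall_ev (f := fun _ => 1) (fun q hq => ?_) (fun q _ => Ev.one q)
    have := (hEv q hq).mul (ev_taylorPS hRd hq)
    rwa [mul_inv_cancel₀ (hU0 q hq)] at this
  have h2 : PowerSeries.map iota u⁻¹ * PowerSeries.map iota u = 1 := by
    rw [← map_mul, PowerSeries.inv_mul_cancel u hu0, map_one]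
  have h3 : taylorPS (fun q => (U q)⁻¹) = PowerSeries.map iota u⁻¹ := by
    calc taylorPS (fun q => (U q)⁻¹)
        = (PowerSeries.map iota u⁻¹ * PowerSeries.map iota u) * taylorPS (fun q => (U q)⁻¹) := by
          rw [h2, one_mul]
      _ = PowerSeries.map iota u⁻¹ := by rw [mul_assoc, h1, mul_one]
  have h4 : HasTExp N (fun τ => (U (Function.Periodic.qParam N τ))⁻¹)
      (HahnSeries.ofPowerSeries ℤ Kbar u⁻¹) :=
    Fermat.Agent.GAL.M.hasTExp_of_ev (R := fun q => (U q)⁻¹) (fun q hq => by
      rw [← h3]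
      exact ev_taylorPS hRd hq)
  have h5 := (HasTExp.single (N := N) (-s.order) 1).mul h4
  have hfun : ((fun τ : ℍ => iota 1 * Function.Periodic.qParam N τ ^ (-s.order)) *
      fun τ : ℍ => (U (Function.Periodic.qParam N τ))⁻¹) = fun τ => (f τ)⁻¹ := by
    funext τ
    rw [Pi.mul_apply, hfU τ, map_one, one_mul, mul_inv, zpow_neg]
  rw [hfun] at h5
  have h6 := h.mul h5
  have hone : (f * fun τ => (f τ)⁻¹) = 1 := by
    funext τ
    rw [Pi.mul_apply, Pi.one_apply, mul_inv_cancel₀ (hf τ)]
  rw [hone] at h6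
  have h7 := h6.unique HasTExp.one
  rw [← eq_inv_of_mul_eq_one_right h7]
  exact h5

end Fermat.Agent.S24
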