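/-
Lib/EtaUnit (architect helper213).  TASK EU-5 (proofs: helper85).
Change of level for `Fermat.Agent.S24.HasTExp`.
-/
import Fermat.Agent.S24.B.TExpBasic
import Fermat.Agent.S24.B.TExpTri

set_option autoImplicit false

namespace Fermat.Agent.S24

open UpperHalfPlane ModularCurve Fermat.Agent.S24.B
open scoped MatrixGroups Real Manifold

/-- `t_M = t_{M k} ^ k`. -/
theorem qParam_eq_qParam_mul_pow (M k : ℕ) [NeZero M] [NeZero k] (z : ℂ) :
    Function.Periodic.qParam (M : ℝ) z = Function.Periodic.qParam ((M * k : ℕ) : ℝ) z ^ k := by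
  have hM : (M : ℂ) ≠ 0 := by exact_mod_cast NeZero.ne M
  have hk : (k : ℂ) ≠ 0 := by exact_mod_cast NeZero.ne k
  rw [Function.Periodic.qParam, Function.Periodic.qParam, ← Complex.exp_nat_mul]
  congr 1
  push_cast
  field_simp

/-- An expansion in `t_M` is the same as an expansion in `t_{M k}` supported on multiples of `k`. -/
theorem hasTExp_mul_qExpand_iff {M : ℕ} [NeZero M] (k : ℕ) [NeZero k] {f : ℍ → ℂ}
    {s : LaurentSeries Kbar} : HasTExp (M * k) f (qExpand Kbar k s) ↔ HasTExp M f s := by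
  refine forall_congr' fun τ => ?_
  have hinj : Function.Injective (fun n : ℤ => (k : ℤ) * n) :=
    mul_right_injective₀ (by exact_mod_cast NeZero.ne k)
  rw [← hinj.hasSum_iff]
  · have : ((fun n : ℤ => iota ((qExpand Kbar k s).coeff n) *
        Function.Periodic.qParam ((M * k : ℕ) : ℝ) (τ : ℂ) ^ n) ∘ fun n : ℤ => (k : ℤ) * n)
        = fun n : ℤ => iota (s.coeff n) * Function.Periodic.qParam (M : ℝ) (τ : ℂ) ^ n := by
      funext n
      simp only [Function.comp_apply]
      rw [qExpand_coeff_mul, qParam_eq_qParam_mul_pow M k, zpow_mul, zpow_natCast]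
    rw [this]
  · intro n hn
    rw [qExpand_coeff_of_not_dvd, map_zero, zero_mul]
    rintro ⟨m, rfl⟩
    exact hn ⟨m, rfl⟩

/-- Change of parameter `t_M = t_{M k} ^ k`.  (Compare the proof of `hasTExp_tri`.) -/
theorem HasTExp.level_mul {M : ℕ} [NeZero M] (k : ℕ) [NeZero k] {f : ℍ → ℂ}
    {s : LaurentSeries Kbar} (h : HasTExp M f s) : HasTExp (M * k) f (qExpand Kbar k s) :=
  (hasTExp_mul_qExpand_iff k).mpr h

/-- Translation by `M` twists the expansions in `t_{M k}` by `ζ_k`. -/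
theorem hasTExp_T_zpow_level {M k : ℕ} [NeZero M] [NeZero k] {f : ℍ → ℂ} {s : LaurentSeries Kbar}
    (h : HasTExp (M * k) f s) :
    HasTExp (M * k) (fun τ => f (ModularGroup.T ^ (M : ℤ) • τ)) (twist (zetaK k) s) := by
  intro τ
  have h1 := h (ModularGroup.T ^ (M : ℤ) • τ)
  have hM : (M : ℂ) ≠ 0 := by exact_mod_cast NeZero.ne M
  have hk : (k : ℂ) ≠ 0 := by exact_mod_cast NeZero.ne k
  have hcoe : ((ModularGroup.T ^ (M : ℤ) • τ : ℍ) : ℂ) = (τ : ℂ) + M := by
    rw [UpperHalfPlane.modular_T_zpow_smul τ M, UpperHalfPlane.coe_vadd]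
    push_cast
    ring
  have hq : Function.Periodic.qParam ((M * k : ℕ) : ℝ) ((ModularGroup.T ^ (M : ℤ) • τ : ℍ) : ℂ)
      = iota ((zetaK k : Kbarˣ) : Kbar) * Function.Periodic.qParam ((M * k : ℕ) : ℝ) (τ : ℂ) := by
    rw [iota_zetaK, hcoe, Function.Periodic.qParam, Function.Periodic.qParam, ← Complex.exp_add]
    congr 1
    push_cast
    field_simp
    ring
  convert h1 using 2 with n
  rw [twist_coeff, map_mul, iota_units_zpow, hq, mul_zpow]
  ring

/-- A Laurent series supported on the multiples of `k` is in the image of `qExpand k`. -/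
theorem exists_qExpand_eq_of_coeff_eq_zero {R : Type*} [CommRing R] (k : ℕ) [NeZero k]
    (s : LaurentSeries R) (hs : ∀ n : ℤ, ¬ (k : ℤ) ∣ n → s.coeff n = 0) :
    ∃ s' : LaurentSeries R, s = qExpand R k s' := by
  have hk : (0 : ℤ) < (k : ℤ) := by exact_mod_cast Nat.pos_of_ne_zero (NeZero.ne k)
  have hbdd : BddBelow (Function.support fun n : ℤ => s.coeff ((k : ℤ) * n)) := by
    refine ⟨min s.order 0, fun n hn => ?_⟩
    by_contra hlt
    rw [not_le, lt_min_iff] at hlt
    apply hn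
    show s.coeff ((k : ℤ) * n) = 0
    refine HahnSeries.coeff_eq_zero_of_lt_order ?_
    have h1 : (k : ℤ) * n ≤ n := by nlinarith [hlt.2]
    exact lt_of_le_of_lt h1 hlt.1
  refine ⟨HahnSeries.ofSuppBddBelow _ hbdd, ?_⟩
  ext n
  by_cases hn : (k : ℤ) ∣ n
  · obtain ⟨m, rfl⟩ := hn
    rw [qExpand_coeff_mul]
    rfl
  · rw [qExpand_coeff_of_not_dvd k _ hn, hs n hn]

/-- A function of period `M` with an expansion in `t_{M k}` has an expansion in `t_M`.
PROOF.  `τ ↦ f (T ^ M • τ)` has the expansion `twist ξ s`, `ξ = ζ_{M k} ^ M` a primitive `k`-th root of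
unity (as in `hasTExp_T_inv`); by `HasTExp.unique` `ξ ^ n * s.coeff n = s.coeff n`, so `s` is supported
on the multiples of `k`; define `s'.coeff n = s.coeff (k n)`. -/
theorem HasTExp.descend {M k : ℕ} [NeZero M] [NeZero k] {f : ℍ → ℂ} {s : LaurentSeries Kbar}
    (h : HasTExp (M * k) f s) (hper : ∀ τ : ℍ, f (ModularGroup.T ^ (M : ℤ) • τ) = f τ) :
    ∃ s' : LaurentSeries Kbar, HasTExp M f s' ∧ s = qExpand Kbar k s' := by
  have h1 : HasTExp (M * k) f (twist (zetaK k) s) := by
    have h2 := hasTExp_T_zpow_level h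
    have h3 : (fun τ => f (ModularGroup.T ^ (M : ℤ) • τ)) = f := funext hper
    rwa [h3] at h2
  have htw : twist (zetaK k) s = s := h1.unique h
  have hs : ∀ n : ℤ, ¬ (k : ℤ) ∣ n → s.coeff n = 0 := by
    intro n hn
    have h4 := congrArg (fun g : LaurentSeries Kbar => g.coeff n) htw
    simp only [twist_coeff] at h4
    by_contra hne
    have h5 : ((zetaK k ^ n : Kbarˣ) : Kbar) = 1 := by
      have h6 : ((zetaK k ^ n : Kbarˣ) : Kbar) * s.coeff n = 1 * s.coeff n := by rw [h4, one_mul]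
      exact mul_right_cancel₀ hne h6
    have h7 : zetaK k ^ n = 1 := Units.ext (by rw [h5, Units.val_one])
    exact hn (((isPrimitiveRoot_zetaK k).zpow_eq_one_iff_dvd n).mp h7)
  obtain ⟨s', hs'⟩ := exists_qExpand_eq_of_coeff_eq_zero k s hs
  exact ⟨s', (hasTExp_mul_qExpand_iff k).mp (hs' ▸ h), hs'⟩

end Fermat.Agent.S24
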