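/-
Lib/EtaUnit (architect helper213).  TASK EU-8.
Proofs: helper279.
Small API for `Fermat.Agent.S24.HasTExp`.
-/
import Fermat.Agent.Lib.EtaUnit.TExp.Level
import Fermat.Agent.Lib.EtaUnit.TExp.Inv

set_option autoImplicit false

namespace Fermat.Agent.S24

open UpperHalfPlane ModularCurve Fermat.Agent.S24.B
open scoped MatrixGroups Real Manifold

theorem HasTExp.const_mul {N : ℕ} [NeZero N] {f : ℍ → ℂ} {s : LaurentSeries Kbar}
    (h : HasTExp N f s) (c : Kbar) : HasTExp N (fun τ => iota c * f τ) (HahnSeries.C c * s) :=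
  (HasTExp.const c).mul h

theorem HasTExp.div {N : ℕ} [NeZero N] {f g : ℍ → ℂ} {s s' : LaurentSeries Kbar}
    (h : HasTExp N f s) (h' : HasTExp N g s') (hg : ∀ τ, g τ ≠ 0) :
    HasTExp N (fun τ => f τ / g τ) (s / s') := by
  have h1 := h.mul (h'.inv hg)
  rw [← div_eq_mul_inv] at h1
  have h2 : (fun τ => f τ / g τ) = f * fun τ => (g τ)⁻¹ := by
    funext τ
    exact div_eq_mul_inv _ _
  rw [h2]
  exact h1

theorem HasTExp.zpow {N : ℕ} [NeZero N] {f : ℍ → ℂ} {s : LaurentSeries Kbar}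
    (h : HasTExp N f s) (hf : ∀ τ, f τ ≠ 0) (r : ℤ) : HasTExp N (fun τ => f τ ^ r) (s ^ r) := by
  cases r with
  | ofNat n =>
    have h1 := h.pow n
    have h2 : (fun τ => f τ ^ (Int.ofNat n)) = f ^ n := by
      funext τ
      exact zpow_natCast _ _
    rw [h2, Int.ofNat_eq_natCast, zpow_natCast]
    exact h1
  | negSucc n =>
    have h1 := (h.pow (n + 1)).inv (fun τ => pow_ne_zero _ (hf τ))
    have h2 : (fun τ => f τ ^ (Int.negSucc n)) = fun τ => ((f ^ (n + 1)) τ)⁻¹ := by
      funext τ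
      exact zpow_negSucc _ _
    rw [h2, zpow_negSucc]
    exact h1

theorem HasTExp.prod {N : ℕ} [NeZero N] {ι : Type*} (S : Finset ι) {f : ι → ℍ → ℂ}
    {s : ι → LaurentSeries Kbar} (h : ∀ i ∈ S, HasTExp N (f i) (s i)) :
    HasTExp N (fun τ => ∏ i ∈ S, f i τ) (∏ i ∈ S, s i) := by
  classical
  induction S using Finset.induction_on with
  | empty =>
    simp only [Finset.prod_empty]
    exact HasTExp.one
  | insert a S ha ih =>
    have h1 := (h a (Finset.mem_insert_self a S)).mul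
      (ih fun i hi => h i (Finset.mem_insert_of_mem hi))
    simp only [Finset.prod_insert ha]
    exact h1

/-- A complex number with an algebraic power is algebraic (`Kbar` is algebraically closed and `iota`
identifies it with the algebraic numbers in `ℂ`; or: `X ^ n - C c` splits in `Kbar`, and for `c ≠ 0` its
`n` distinct roots are mapped by `iota` onto the `n` complex roots of `X ^ n - C (iota c)`). -/
theorem exists_iota_eq_of_pow_eq {z : ℂ} {n : ℕ} (hn : 0 < n) {c : Kbar} (h : z ^ n = iota c) :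
    ∃ c' : Kbar, iota c' = z := by
  have hz : IsIntegral Kbar z := by
    refine ⟨Polynomial.X ^ n - Polynomial.C c, Polynomial.monic_X_pow_sub_C c hn.ne', ?_⟩
    rw [Polynomial.eval₂_sub, Polynomial.eval₂_pow, Polynomial.eval₂_X, Polynomial.eval₂_C, h,
      algebraMap_Kbar_complex, sub_self]
  have hdeg : (minpoly Kbar z).degree = 1 :=
    IsAlgClosed.degree_eq_one_of_irreducible Kbar (minpoly.irreducible hz)
  obtain ⟨c', hc'⟩ := minpoly.mem_range_of_degree_eq_one Kbar z hdeg
  exact ⟨c', hc'⟩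

/-- Finitely many expansions can be brought to a common level (`HasTExp.level_mul`,
level `∏ i ∈ S, M i`). -/
theorem exists_common_level {ι : Type*} (S : Finset ι) {f : ι → ℍ → ℂ}
    (h : ∀ i ∈ S, ∃ (M : ℕ) (_ : NeZero M) (s : LaurentSeries Kbar), HasTExp M (f i) s) :
    ∃ (M : ℕ) (_ : NeZero M), ∀ i ∈ S, ∃ s : LaurentSeries Kbar, HasTExp M (f i) s := by
  classical
  induction S using Finset.induction_on with
  | empty => exact ⟨1, ⟨one_ne_zero⟩, fun i hi => absurd hi (Finset.notMem_empty i)⟩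
  | insert a S ha ih =>
    obtain ⟨M₀, hM₀, hS⟩ := ih fun i hi => h i (Finset.mem_insert_of_mem hi)
    obtain ⟨Ma, hMa, sa, hsa⟩ := h a (Finset.mem_insert_self a S)
    refine ⟨M₀ * Ma, ⟨mul_ne_zero hM₀.out hMa.out⟩, fun i hi => ?_⟩
    rcases Finset.mem_insert.mp hi with rfl | hi
    · exact ⟨_, mul_comm Ma M₀ ▸ hsa.level_mul M₀⟩
    · obtain ⟨s, hs⟩ := hS i hi
      exact ⟨_, hs.level_mul Ma⟩

end Fermat.Agent.S24
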