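/-
Lib/EtaUnit (architect helper213).  TASK EU-6.
The statements are a frozen interface (proved by helper117).
-/
import Fermat.Agent.S24.B.TExpBasic
import Fermat.Agent.S24.B.TExpTri

set_option autoImplicit false

namespace Fermat.Agent.Lib.EtaUnit

open UpperHalfPlane ModularCurve Fermat.Agent.S24 Fermat.Agent.S24.B
open scoped MatrixGroups Real Manifold

/-- `Fermat.Agent.S24.B.hasTExp_tri` starting from an arbitrary level `M` (copy its proof):
if `f = ∑ sₙ t_Mⁿ` then `f ((a τ + b) / d) = ∑ sₙ ξⁿ t_N^(e n)` with `e / N = a / (d M)`,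
`ξ = exp (2 π i b / (d M))`. -/
theorem hasTExp_tri' {M N : ℕ} [NeZero M] [NeZero N] {f : ℍ → ℂ} {s : LaurentSeries Kbar}
    (h : HasTExp M f s) (a b d : ℤ) (ha : 0 < a) (hd : 0 < d) (e : ℕ) [NeZero e]
    (he : (e : ℤ) * (d * M) = N * a) (ξ : Kbarˣ)
    (hξ : iota (ξ : Kbar) = Complex.exp (2 * π * Complex.I * b / (d * M))) :
    HasTExp N (fun τ => f (triMat a b d ha hd • τ)) (qExpand Kbar e (twist ξ s)) := by
  intro τ
  have h1 := h (triMat a b d ha hd • τ)
  have hN : (N : ℂ) ≠ 0 := by exact_mod_cast NeZero.ne N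
  have hM : (M : ℂ) ≠ 0 := by exact_mod_cast NeZero.ne M
  have hdC : (d : ℂ) ≠ 0 := by exact_mod_cast hd.ne'
  have heC : (e : ℂ) * (d * M) = N * a := by exact_mod_cast he
  have hq : Function.Periodic.qParam (M : ℝ) ((triMat a b d ha hd • τ : ℍ) : ℂ)
      = iota (ξ : Kbar) * Function.Periodic.qParam (N : ℝ) (τ : ℂ) ^ e := by
    rw [hξ, coe_triMat_smul, Function.Periodic.qParam, Function.Periodic.qParam,
      ← Complex.exp_nat_mul, ← Complex.exp_add]
    congr 1
    push_cast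
    field_simp
    linear_combination (τ : ℂ) * (-heC)
  have hinj : Function.Injective (fun n : ℤ => (e : ℤ) * n) :=
    mul_right_injective₀ (by exact_mod_cast NeZero.ne e)
  rw [← hinj.hasSum_iff]
  · convert h1 using 2 with n
    simp only [Function.comp_apply]
    rw [qExpand_coeff_mul, twist_coeff, map_mul, iota_units_zpow, hq, mul_zpow, zpow_mul,
      zpow_natCast]
    ring
  · intro n hn
    rw [qExpand_coeff_of_not_dvd, map_zero, zero_mul]
    rintro ⟨m, rfl⟩
    exact hn ⟨m, rfl⟩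

/-- Existence form: any expansion of `f` gives an expansion of `τ ↦ f ((a τ + b) / d)`
(take `N = d * M`, `e = a`, `ξ = zetaK (d * M) ^ b`, see `iota_zetaK_zpow`). -/
theorem exists_hasTExp_tri {M : ℕ} [NeZero M] {f : ℍ → ℂ} {s : LaurentSeries Kbar}
    (h : HasTExp M f s) (a b d : ℤ) (ha : 0 < a) (hd : 0 < d) :
    ∃ (M' : ℕ) (_ : NeZero M') (s' : LaurentSeries Kbar),
      HasTExp M' (fun τ => f (triMat a b d ha hd • τ)) s' := by
  have hdM : d.toNat * M ≠ 0 :=
    mul_ne_zero (by omega) (NeZero.ne M)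
  have _ : NeZero (d.toNat * M) := ⟨hdM⟩
  have _ : NeZero a.toNat := ⟨by omega⟩
  have hdn : ((d.toNat : ℕ) : ℤ) = d := Int.toNat_of_nonneg hd.le
  have han : ((a.toNat : ℕ) : ℤ) = a := Int.toNat_of_nonneg ha.le
  refine ⟨d.toNat * M, inferInstance, _,
    hasTExp_tri' (N := d.toNat * M) h a b d ha hd a.toNat ?_ (zetaK (d.toNat * M) ^ b) ?_⟩
  · push_cast
    rw [hdn, han]
    ring
  · rw [iota_zetaK_zpow]
    have hdC : ((d.toNat : ℕ) : ℂ) = (d : ℂ) := by exact_mod_cast congrArg (Int.cast : ℤ → ℂ) hdn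
    push_cast
    rw [hdC]

end Fermat.Agent.Lib.EtaUnit
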